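import Mathlib
import Fermat.Agent.S18.KeyLocal
import Fermat.Agent.S18.KeyJacobi
import Fermat.Agent.MU.S18.NSBuild
import Fermat.Agent.MU.Lib.Deuring.Main
import Fermat.Agent.MU.Lib.RR.Weil

section MergeWrap_S18_KeyLemma -- from S18/KeyLemma.lean

set_option autoImplicit false

/-!
# S18 / KEY LEMMA: the main argument

`kl_main`: if `u₀` has divisor `m * ∑ (P i - R i)` with `P i` in the residue disc of `Rb i` and
`m` a unit of `A`, then `P i = R i` for all `i`.
-/

noncomputable section

open AlgebraicCurve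

namespace Fermat.Agent.S18Key

variable {K F k Fk : Type*} [Field K] [Field F] [Algebra K F] [Field k] [Field Fk] [Algebra k Fk]
variable {S : RedSetup K F k Fk} {g : ℕ}

/-- the order of `red c * f` for a unit constant `c` of `A`. -/
theorem kl_ord_red_unit_mul (Q : Place k Fk) {c : K} (hc0 : c ≠ 0) (hc : c ∈ S.A)
    (hci : c⁻¹ ∈ S.A) (f : Fk) : Q.ord (S.red (algebraMap K F c) * f) = Q.ord f := by
  rcases kl_ord_red_const_mul (S := S) Q hc f with h | h
  · have hf : f = 0 := by
      rcases mul_eq_zero.mp h with h' | h'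
      · exact absurd h' (kl_red_const_ne_zero hc0 hc hci)
      · exact h'
    rw [hf, mul_zero]
  · exact h

/-- final contradiction: a unit `W`, regular off the discs `I`, with residue having at most simple
poles at the `Rb j`, `j ∈ I`, cannot vanish at `P0`. -/
theorem kl_final (N : NSData S g) (I : Finset (Fin g)) {W : F} (hW : S.IsU W)
    (hreg : ∀ v, (∀ j ∈ I, S.r v ≠ N.Rb j) → 0 ≤ v.ord W)
    (hpole : ∀ j ∈ I, -1 ≤ (N.Rb j).ord (S.red W))
    (hz : 0 < N.P0.ord W) : False := by
  have h1 : ∀ Q, (∀ j ∈ I, Q ≠ N.Rb j) → 0 ≤ Q.ord (S.red W) := fun Q hQ =>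
    push_nonneg hW Q fun P hP => hreg P fun j hj => by rw [hP]; exact hQ j hj
  obtain ⟨c, hc⟩ := N.nonspecial (S.red W) hW.red_ne_zero
    (fun Q hQ => h1 Q fun j _ => hQ j)
    (fun i => by
      by_cases hi : i ∈ I
      · exact hpole i hi
      · have := h1 (N.Rb i) fun j hj hij => hi (by rw [N.Rb_inj hij]; exact hj)
        omega)
  have h2 : (S.r N.P0).ord (S.red W) = 0 := by
    rw [hc]; exact Fermat.Agent.S24Res.ord_algebraMap _ c
  have h3 := push_ge hW (S.r N.P0)
    (fun P hP => hreg P fun j _ => by rw [hP]; exact N.r_P0 j) N.P0 rfl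
  omega

/-- normalisation of the value at `P0`. -/
theorem kl_normalise (P0 : Place K F) {u₀ : F} (hu₀ : u₀ ≠ 0)
    (h0 : ∀ P, S.r P = S.r P0 → P.ord u₀ = 0) :
    ∃ c : K, c ≠ 0 ∧ S.IsU (u₀ / algebraMap K F c) ∧
      (u₀ / algebraMap K F c = 1 ∨ 0 < P0.ord (u₀ / algebraMap K F c - 1)) := by
  obtain ⟨c₁, hc₁, hU⟩ := exists_scale (S := S) hu₀
  have hord : ∀ P : Place K F, P.ord (u₀ / algebraMap K F c₁) = P.ord u₀ := fun P =>
    kl_ord_div_const P hc₁ u₀
  have h0' : ∀ P, S.r P = S.r P0 → P.ord (u₀ / algebraMap K F c₁) = 0 := fun P hP => by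
    rw [hord, h0 P hP]
  have hreg : ∀ P, S.r P = S.r P0 → 0 ≤ P.ord (u₀ / algebraMap K F c₁) := fun P hP =>
    (h0' P hP).ge
  obtain ⟨c₀, hc₀⟩ := Fermat.Agent.RR.exists_const_sub S.hF P0 (hreg P0 rfl)
  have hc₀A : c₀ ∈ S.A := value_mem_A hU.mem P0 hreg c₀ hc₀
  have hc₀0 : c₀ ≠ 0 := by
    rintro rfl
    rw [map_zero, sub_zero] at hc₀
    rcases hc₀ with h | h
    · exact hU.ne_zero h
    · rw [h0' P0 rfl] at h; exact lt_irrefl _ h
  have hvr := value_red hU.mem P0 hreg c₀ hc₀A hc₀
  have hpz : (S.r P0).ord (S.red (u₀ / algebraMap K F c₁)) = 0 := kl_push_zero hU (S.r P0) h0'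
  have hc₀i : c₀⁻¹ ∈ S.A := by
    by_contra hci
    rw [kl_red_const_eq_zero hc₀A hci, sub_zero] at hvr
    rcases hvr with h | h
    · exact hU.red_ne_zero h
    · rw [hpz] at h; exact lt_irrefl _ h
  have hcU : S.IsU (algebraMap K F c₀) := isU_const hc₀0 hc₀A hc₀i
  have e : u₀ / algebraMap K F (c₁ * c₀) = u₀ / algebraMap K F c₁ / algebraMap K F c₀ := by
    rw [map_mul, div_div]
  refine ⟨c₁ * c₀, mul_ne_zero hc₁ hc₀0, ?_, ?_⟩
  · rw [e]; exact hU.div hcU
  · rw [e]
    rcases hc₀ with h | h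
    · left; rw [h]; exact div_self hcU.ne_zero
    · right
      have e2 : u₀ / algebraMap K F c₁ / algebraMap K F c₀ - 1 =
          (u₀ / algebraMap K F c₁ - algebraMap K F c₀) / algebraMap K F c₀ := by
        rw [sub_div, div_self hcU.ne_zero]
      rw [e2, kl_ord_div_const P0 hc₀0]; exact h

/-- the core contradiction. -/
theorem kl_core (N : NSData S g) (I : Finset (Fin g)) (istar : Fin g) (_hstar : istar ∈ I)
    {u : F} (hu : S.IsU u) (hu1 : u ≠ 1) (huP0 : 0 < N.P0.ord (u - 1))
    (hu_off : ∀ v, (∀ j ∈ I, S.r v ≠ N.Rb j) → v.ord u = 0)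
    {a : K} (ha0 : a ≠ 0) (haA : a ∈ S.A) (hai : a⁻¹ ∉ S.A)
    {Y : F} (hY : Y ∈ S.Ov) (hY2 : ∀ j ∈ I, -1 ≤ (N.Rb j).ord (S.red Y))
    (hY3 : (N.Rb istar).ord (S.red Y) = -1)
    (huV : ∀ j ∈ I, ∀ v, S.r v = N.Rb j → v.ord (u * (1 + algebraMap K F a * Y)) = 0) :
    False := by
  have haF0 : algebraMap K F a ≠ 0 := by simpa using ha0
  have haO : algebraMap K F a ∈ S.Ov := (const_mem_iff a).mpr haA
  have hreda : S.red (algebraMap K F a) = 0 := kl_red_const_eq_zero haA hai
  have hVmem : 1 + algebraMap K F a * Y ∈ S.Ov := add_mem (one_mem _) (mul_mem haO hY)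
  have hredV : S.red (1 + algebraMap K F a * Y) = 1 := by
    rw [red_add (one_mem _) (mul_mem haO hY), red_one, red_mul haO hY, hreda, zero_mul, add_zero]
  have hVU : S.IsU (1 + algebraMap K F a * Y) :=
    isU_of_red_ne_zero hVmem (by rw [hredV]; exact one_ne_zero)
  have hredY0 : S.red Y ≠ 0 := kl_ne_zero_of_ord_ne_zero (N.Rb istar) (by rw [hY3]; norm_num)
  have hx0 : u - 1 ≠ 0 := sub_ne_zero.mpr hu1
  have hXmem : u * (1 + algebraMap K F a * Y) - 1 ∈ S.Ov :=
    sub_mem (mul_mem hu.mem hVmem) (one_mem _)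
  have hT : u * (1 + algebraMap K F a * Y) - 1 - algebraMap K F a * Y =
      (u - 1) * (1 + algebraMap K F a * Y) := by ring
  have hXreg : ∀ j ∈ I, ∀ v, S.r v = N.Rb j →
      0 ≤ v.ord (u * (1 + algebraMap K F a * Y) - 1) := fun j hj v hv =>
    ord_nonneg_sub v (huV j hj v hv).ge (ord_one_nonneg v)
  -- the key claim
  have key : ∃ τ : K, τ ≠ 0 ∧
      ((u - 1) * (1 + algebraMap K F a * Y)) / algebraMap K F τ ∈ S.Ov ∧
      S.red (((u - 1) * (1 + algebraMap K F a * Y)) / algebraMap K F τ) ≠ 0 ∧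
      ∀ j ∈ I, -1 ≤ (N.Rb j).ord
        (S.red (((u - 1) * (1 + algebraMap K F a * Y)) / algebraMap K F τ)) := by
    by_cases hZ : (u * (1 + algebraMap K F a * Y) - 1) / algebraMap K F a ∈ S.Ov ∧
        S.red ((u * (1 + algebraMap K F a * Y) - 1) / algebraMap K F a) = 0
    · have e : ((u - 1) * (1 + algebraMap K F a * Y)) / algebraMap K F a =
          (u * (1 + algebraMap K F a * Y) - 1) / algebraMap K F a - Y := by
        rw [← hT, sub_div, mul_div_cancel_left₀ _ haF0]
      have hr : S.red (((u - 1) * (1 + algebraMap K F a * Y)) / algebraMap K F a) =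
          -S.red Y := by
        rw [e, red_sub hZ.1 hY, hZ.2, zero_sub]
      refine ⟨a, ha0, ?_, ?_, ?_⟩
      · rw [e]; exact sub_mem hZ.1 hY
      · rw [hr]; exact neg_ne_zero.mpr hredY0
      · intro j hj
        rw [hr, ord_neg']
        exact hY2 j hj
    · have hX0 : u * (1 + algebraMap K F a * Y) - 1 ≠ 0 := by
        intro h0
        apply hZ
        rw [h0, zero_div]
        exact ⟨zero_mem _, red_zero⟩
      obtain ⟨b, hb0, hw⟩ := exists_scale (S := S) hX0
      have hbF0 : algebraMap K F b ≠ 0 := by simpa using hb0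
      have hcA : a / b ∈ S.A := by
        by_contra hc
        have hci : (a / b)⁻¹ ∈ S.A := (S.A.mem_or_inv_mem (a / b)).resolve_left hc
        have hcii : ((a / b)⁻¹)⁻¹ ∉ S.A := by rwa [inv_inv]
        have hr0 : S.red (algebraMap K F (a / b)⁻¹) = 0 := kl_red_const_eq_zero hci hcii
        have hcO : algebraMap K F (a / b)⁻¹ ∈ S.Ov := (const_mem_iff _).mpr hci
        have e : (u * (1 + algebraMap K F a * Y) - 1) / algebraMap K F a =
            (u * (1 + algebraMap K F a * Y) - 1) / algebraMap K F b *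
              algebraMap K F (a / b)⁻¹ := by
          rw [map_inv₀, map_div₀]
          field_simp
        apply hZ
        rw [e]
        exact ⟨mul_mem hw.mem hcO, by rw [red_mul hw.mem hcO, hr0, mul_zero]⟩
      have hcO : algebraMap K F (a / b) ∈ S.Ov := (const_mem_iff _).mpr hcA
      have e : ((u - 1) * (1 + algebraMap K F a * Y)) / algebraMap K F b =
          (u * (1 + algebraMap K F a * Y) - 1) / algebraMap K F b -
            algebraMap K F (a / b) * Y := by
        rw [← hT, sub_div, map_div₀]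
        field_simp
      have hr : S.red (((u - 1) * (1 + algebraMap K F a * Y)) / algebraMap K F b) =
          S.red ((u * (1 + algebraMap K F a * Y) - 1) / algebraMap K F b) -
            S.red (algebraMap K F (a / b)) * S.red Y := by
        rw [e, red_sub hw.mem (mul_mem hcO hY), red_mul hcO hY]
      have hwreg : ∀ j ∈ I, 0 ≤ (N.Rb j).ord
          (S.red ((u * (1 + algebraMap K F a * Y) - 1) / algebraMap K F b)) := fun j hj =>
        push_nonneg hw (N.Rb j) fun P hP => by
          rw [kl_ord_div_const P hb0]; exact hXreg j hj P hP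
      refine ⟨b, hb0, ?_, ?_, ?_⟩
      · rw [e]; exact sub_mem hw.mem (mul_mem hcO hY)
      · rw [hr]
        intro h0
        rw [sub_eq_zero] at h0
        rcases kl_ord_red_const_mul (S := S) (N.Rb istar) hcA (S.red Y) with h | h
        · rw [h] at h0
          exact hw.red_ne_zero h0
        · have := hwreg istar _hstar
          rw [h0, h, hY3] at this
          omega
      · intro j hj
        rw [hr]
        refine kl_ord_sub_ge_of_ge (N.Rb j) (by norm_num) ?_ ?_
        · have := hwreg j hj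
          omega
        · exact kl_ord_red_const_mul_ge (N.Rb j) hcA _ (by norm_num) (hY2 j hj)
  obtain ⟨τ, hτ0, hmem, hred0, hord⟩ := key
  have hτF0 : algebraMap K F τ ≠ 0 := by simpa using hτ0
  have hWe : (u - 1) / algebraMap K F τ =
      ((u - 1) * (1 + algebraMap K F a * Y)) / algebraMap K F τ *
        (1 + algebraMap K F a * Y)⁻¹ := by
    have := hVU.ne_zero
    field_simp
  have hTU : S.IsU (((u - 1) * (1 + algebraMap K F a * Y)) / algebraMap K F τ) :=
    isU_of_red_ne_zero hmem hred0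
  have hWU : S.IsU ((u - 1) / algebraMap K F τ) := by rw [hWe]; exact hTU.mul hVU.inv
  have hredW : S.red ((u - 1) / algebraMap K F τ) =
      S.red (((u - 1) * (1 + algebraMap K F a * Y)) / algebraMap K F τ) := by
    rw [hWe, red_mul hmem hVU.inv_mem, hVU.red_inv, hredV, inv_one, mul_one]
  have hordW : ∀ v : Place K F, v.ord ((u - 1) / algebraMap K F τ) = v.ord (u - 1) := fun v =>
    kl_ord_div_const v hτ0 _
  refine kl_final N I hWU ?_ ?_ ?_
  · intro v hv
    rw [hordW]
    exact ord_nonneg_sub v (hu_off v hv).ge (ord_one_nonneg v)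
  · intro j hj
    rw [hredW]
    exact hord j hj
  · rw [hordW]
    exact huP0

end Fermat.Agent.S18Key
end
end MergeWrap_S18_KeyLemma

section MergeWrap_S18_KeyMain -- from S18/KeyMain.lean

set_option autoImplicit false

/-!
# S18 / KEY LEMMA: the main theorem `kl_main`

If `u₀` has divisor `m * ∑ (P i - R i)` with `P i` in the residue disc of `Rb i` and `m` a unit
of `A`, then `P i = R i` for all `i`.
-/

noncomputable section

open AlgebraicCurve

namespace Fermat.Agent.S18Key

variable {K F k Fk : Type*} [Field K] [Field F] [Algebra K F] [Field k] [Field Fk] [Algebra k Fk]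
variable {S : RedSetup K F k Fk} {g : ℕ}

theorem kl_main (N : NSData S g) (m : ℕ) (hm0 : (m : K) ≠ 0) (hmA : ((m : K))⁻¹ ∈ S.A)
    (P : Fin g → Place K F) (hP : ∀ i, S.r (P i) = N.Rb i)
    (u₀ : F) (hu₀ : u₀ ≠ 0)
    (hdiv : ∀ v : Place K F, v.ord u₀ =
      m * ∑ i, (Finsupp.single (P i) (1 : ℤ) v - Finsupp.single (N.R i) (1 : ℤ) v)) :
    ∀ i, P i = N.R i := by
  classical
  by_contra hcon
  obtain ⟨i₀, hi₀⟩ := not_forall.mp hcon
  set I : Finset (Fin g) := Finset.univ.filter fun i => P i ≠ N.R i with hI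
  have hmemI : ∀ i, i ∈ I ↔ P i ≠ N.R i := fun i => by simp [hI]
  have hIne : I.Nonempty := ⟨i₀, (hmemI i₀).mpr hi₀⟩
  -- the divisor of u₀
  have hterm : ∀ (v : Place K F) (i : Fin g), (i ∉ I ∨ S.r v ≠ N.Rb i) →
      Finsupp.single (P i) (1 : ℤ) v - Finsupp.single (N.R i) (1 : ℤ) v = 0 := by
    intro v i h
    rcases h with h | h
    · have : P i = N.R i := by
        by_contra h'
        exact h ((hmemI i).mpr h')
      rw [this, sub_self]
    · have h1 : v ≠ P i := fun e => h (by rw [e]; exact hP i)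
      have h2 : v ≠ N.R i := fun e => h (by rw [e]; exact N.r_R i)
      rw [Finsupp.single_eq_of_ne h1, Finsupp.single_eq_of_ne h2, sub_self]
  have hH1 : ∀ v, (∀ j ∈ I, S.r v ≠ N.Rb j) → v.ord u₀ = 0 := by
    intro v hv
    rw [hdiv, Finset.sum_eq_zero, mul_zero]
    intro i _
    apply hterm
    by_cases hi : i ∈ I
    · exact Or.inr (hv i hi)
    · exact Or.inl hi
  have hH2 : ∀ j ∈ I, ∀ v, S.r v = N.Rb j → v.ord u₀ =
      m * (Finsupp.single (P j) (1 : ℤ) v - Finsupp.single (N.R j) (1 : ℤ) v) := by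
    intro j _ v hv
    rw [hdiv, Finset.sum_eq_single j]
    · intro i _ hij
      apply hterm
      right
      rw [hv]
      exact fun e => hij (N.Rb_inj e).symm
    · intro h
      exact absurd (Finset.mem_univ j) h
  -- normalise
  obtain ⟨c, hc0, hU, hval⟩ := kl_normalise (S := S) N.P0 hu₀
    (fun P hP => hH1 P fun j _ => by rw [hP]; exact N.r_P0 j)
  have hordu : ∀ v : Place K F, v.ord (u₀ / algebraMap K F c) = v.ord u₀ := fun v =>
    kl_ord_div_const v hc0 u₀
  have hmZ : (m : ℤ) ≠ 0 := by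
    intro h
    apply hm0
    have : m = 0 := by exact_mod_cast h
    rw [this]
    simp
  have hu1 : u₀ / algebraMap K F c ≠ 1 := by
    intro h1
    have := hH2 i₀ ((hmemI i₀).mpr hi₀) (P i₀) (hP i₀)
    rw [← hordu, h1, Place.ord_one, Finsupp.single_eq_same, Finsupp.single_eq_of_ne hi₀,
      sub_zero, mul_one] at this
    exact hmZ this.symm
  have huP0 : 0 < N.P0.ord (u₀ / algebraMap K F c - 1) := hval.resolve_left hu1
  -- local data
  have hloc : ∀ i, ∃ a : K, i ∈ I → KLLocal S N i (P i) a := by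
    intro i
    by_cases hi : i ∈ I
    · obtain ⟨a, ha⟩ := kl_exists_local N i (P i) (hP i) ((hmemI i).mp hi)
      exact ⟨a, fun _ => ha⟩
    · exact ⟨0, fun h => absurd h hi⟩
  choose aI hL using hloc
  -- choose `istar` with maximal valuation
  obtain ⟨istar, hstar, hmax⟩ := Finset.exists_max_image I (fun i => S.A.valuation (aI i)) hIne
  have hLs := hL istar hstar
  have ha0 : aI istar ≠ 0 := hLs.a_ne
  have haA : aI istar ∈ S.A := hLs.a_mem
  have hai : (aI istar)⁻¹ ∉ S.A := hLs.a_inv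
  have haF0 : algebraMap K F (aI istar) ≠ 0 := by simpa using ha0
  have haO : algebraMap K F (aI istar) ∈ S.Ov := (const_mem_iff _).mpr haA
  have hreda : S.red (algebraMap K F (aI istar)) = 0 := kl_red_const_eq_zero haA hai
  have hcA : ∀ i ∈ I, aI i / aI istar ∈ S.A := by
    intro i hi
    rw [← ValuationSubring.valuation_le_one_iff, map_div₀]
    have hpos : 0 < S.A.valuation (aI istar) :=
      zero_lt_iff.mpr ((Valuation.ne_zero_iff _).mpr ha0)
    exact (div_le_one₀ hpos).mpr (hmax i hi)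
  have hcO : ∀ i ∈ I, algebraMap K F (aI i / aI istar) ∈ S.Ov := fun i hi =>
    (const_mem_iff _).mpr (hcA i hi)
  -- the functions
  have hs0 : ∀ i ∈ I, N.t i - algebraMap K F (aI i) ≠ 0 := fun i hi => (hL i hi).s_isU.ne_zero
  have hσmem : ∀ i ∈ I,
      algebraMap K F (aI i / aI istar) * (N.t i - algebraMap K F (aI i))⁻¹ ∈ S.Ov :=
    fun i hi => mul_mem (hcO i hi) (hL i hi).s_isU.inv_mem
  have hq : ∀ i ∈ I, N.t i * (N.t i - algebraMap K F (aI i))⁻¹ =
      1 + algebraMap K F (aI istar) *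
        (algebraMap K F (aI i / aI istar) * (N.t i - algebraMap K F (aI i))⁻¹) := by
    intro i hi
    have := hs0 i hi
    rw [map_div₀]
    field_simp
    ring
  have hq0 : ∀ i ∈ I, N.t i * (N.t i - algebraMap K F (aI i))⁻¹ ≠ 0 := fun i hi =>
    mul_ne_zero (hL i hi).t_isU.ne_zero (inv_ne_zero (hs0 i hi))
  have hexp : KLExp S (algebraMap K F (aI istar))
      ((∏ i ∈ I, N.t i * (N.t i - algebraMap K F (aI i))⁻¹) ^ m)
      ((m : F) * ∑ i ∈ I,
        algebraMap K F (aI i / aI istar) * (N.t i - algebraMap K F (aI i))⁻¹) := by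
    apply KLExp.pow haO (sum_mem hσmem)
    apply KLExp.prod I _ _ haO hσmem
    intro i hi
    rw [hq i hi]
    exact KLExp.base _ _
  obtain ⟨y, hy, hVy⟩ := hexp
  have hmF : (m : F) = algebraMap K F (m : K) := (map_natCast (algebraMap K F) m).symm
  have hmAm : (m : K) ∈ S.A := natCast_mem _ m
  have hmO : (m : F) ∈ S.Ov := natCast_mem _ m
  have hSmem : ∑ i ∈ I,
      algebraMap K F (aI i / aI istar) * (N.t i - algebraMap K F (aI i))⁻¹ ∈ S.Ov :=
    sum_mem hσmem
  have hYmem : (m : F) * ∑ i ∈ I,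
      algebraMap K F (aI i / aI istar) * (N.t i - algebraMap K F (aI i))⁻¹ +
        algebraMap K F (aI istar) * y ∈ S.Ov :=
    add_mem (mul_mem hmO hSmem) (mul_mem haO hy)
  have hVY : (∏ i ∈ I, N.t i * (N.t i - algebraMap K F (aI i))⁻¹) ^ m =
      1 + algebraMap K F (aI istar) * ((m : F) * ∑ i ∈ I,
        algebraMap K F (aI i / aI istar) * (N.t i - algebraMap K F (aI i))⁻¹ +
          algebraMap K F (aI istar) * y) := by
    rw [hVy]; ring
  -- residues of the σ i
  have hredσ : ∀ i ∈ I,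
      S.red (algebraMap K F (aI i / aI istar) * (N.t i - algebraMap K F (aI i))⁻¹) =
        S.red (algebraMap K F (aI i / aI istar)) * (S.red (N.t i))⁻¹ := by
    intro i hi
    rw [red_mul (hcO i hi) (hL i hi).s_isU.inv_mem, (hL i hi).s_isU.red_inv, (hL i hi).red_s]
  have hredY : S.red ((m : F) * ∑ i ∈ I,
      algebraMap K F (aI i / aI istar) * (N.t i - algebraMap K F (aI i))⁻¹ +
        algebraMap K F (aI istar) * y) =
      S.red (algebraMap K F (m : K)) * ∑ i ∈ I,
        S.red (algebraMap K F (aI i / aI istar)) * (S.red (N.t i))⁻¹ := by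
    rw [red_add (mul_mem hmO hSmem) (mul_mem haO hy), red_mul hmO hSmem, red_mul haO hy, hreda,
      zero_mul, add_zero, kl_red_sum I _ hσmem, hmF]
    congr 1
    exact Finset.sum_congr rfl hredσ
  have hordσ : ∀ i ∈ I, ∀ j, -1 ≤ (N.Rb j).ord
      (S.red (algebraMap K F (aI i / aI istar)) * (S.red (N.t i))⁻¹) := by
    intro i hi j
    refine kl_ord_red_const_mul_ge (N.Rb j) (hcA i hi) _ (by norm_num) ?_
    rw [(N.Rb j).ord_inv]
    by_cases hij : i = j
    · subst hij
      rw [kl_ord_red_t_self]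
    · rw [kl_ord_red_t_other N i j hij]
      norm_num
  have hordσ' : ∀ i ∈ I, ∀ j, i ≠ j → 0 ≤ (N.Rb j).ord
      (S.red (algebraMap K F (aI i / aI istar)) * (S.red (N.t i))⁻¹) := by
    intro i hi j hij
    refine kl_ord_red_const_mul_ge (N.Rb j) (hcA i hi) _ le_rfl ?_
    rw [(N.Rb j).ord_inv, kl_ord_red_t_other N i j hij]
    norm_num
  have hordσs : (N.Rb istar).ord
      (S.red (algebraMap K F (aI istar / aI istar)) * (S.red (N.t istar))⁻¹) = -1 := by
    rw [div_self ha0, map_one, red_one, one_mul, (N.Rb istar).ord_inv, kl_ord_red_t_self]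
  have hY2 : ∀ j ∈ I, -1 ≤ (N.Rb j).ord (S.red ((m : F) * ∑ i ∈ I,
      algebraMap K F (aI i / aI istar) * (N.t i - algebraMap K F (aI i))⁻¹ +
        algebraMap K F (aI istar) * y)) := by
    intro j _
    rw [hredY]
    refine kl_ord_red_const_mul_ge (N.Rb j) hmAm _ (by norm_num) ?_
    exact kl_ord_sum_ge (N.Rb j) I _ (by norm_num) fun i hi => hordσ i hi j
  have hY3 : (N.Rb istar).ord (S.red ((m : F) * ∑ i ∈ I,
      algebraMap K F (aI i / aI istar) * (N.t i - algebraMap K F (aI i))⁻¹ +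
        algebraMap K F (aI istar) * y)) = -1 := by
    rw [hredY, kl_ord_red_unit_mul (N.Rb istar) hm0 hmAm hmA, ← Finset.add_sum_erase I _ hstar]
    rw [ord_add_eq_of_lt (N.Rb istar) (by rw [hordσs]; norm_num)]
    · exact hordσs
    · refine kl_ord_sum_ge (N.Rb istar) _ _ le_rfl fun i hi => ?_
      exact hordσ' i (Finset.mem_of_mem_erase hi) istar (Finset.ne_of_mem_erase hi)
  -- orders of `u * V` on the discs
  have huV : ∀ j ∈ I, ∀ v, S.r v = N.Rb j →
      v.ord (u₀ / algebraMap K F c * (1 + algebraMap K F (aI istar) * ((m : F) * ∑ i ∈ I,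
        algebraMap K F (aI i / aI istar) * (N.t i - algebraMap K F (aI i))⁻¹ +
          algebraMap K F (aI istar) * y))) = 0 := by
    intro j hj v hv
    rw [← hVY, v.ord_mul hU.ne_zero (pow_ne_zero _ (Finset.prod_ne_zero_iff.mpr hq0)), hordu,
      hH2 j hj v hv, kl_ord_pow, kl_ord_prod v I _ hq0, Finset.sum_eq_single_of_mem j hj]
    · rw [v.ord_mul (hL j hj).t_isU.ne_zero (inv_ne_zero (hs0 j hj)), v.ord_inv,
        (hL j hj).ord_t_self v hv, (hL j hj).ord_s_self v hv]
      ring
    · intro i hi hij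
      rw [v.ord_mul (hL i hi).t_isU.ne_zero (inv_ne_zero (hs0 i hi)), v.ord_inv,
        (hL i hi).ord_t_other j (Ne.symm hij) v hv, (hL i hi).ord_s_other j (Ne.symm hij) v hv]
      norm_num
  exact kl_core N I istar hstar hU hu1 huP0 (fun v hv => by rw [hordu]; exact hH1 v hv)
    ha0 haA hai hYmem hY2 hY3 huV

end Fermat.Agent.S18Key
end
end MergeWrap_S18_KeyMain

section MergeWrap_S18_KeyFinal -- from S18/KeyFinal.lean

set_option autoImplicit false

/-!
# S18 / KEY LEMMA: prime-to-residue-characteristic torsion injects under reduction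

`key_lemma : KeyLemmaStatement S g` for every reduction package `S : RedSetup K F k Fk`:
given Riemann's inequality in degree `g` on `F` and `g` non-special generic points on `Fk`
(`NSData S g`), a degree zero divisor `D` on `F` with `m • D` principal, `m` a unit of `A`, and
principal reduction `r_* D` is principal.
-/

noncomputable section

open AlgebraicCurve

namespace Fermat.Agent.S18Key

variable {K F k Fk : Type*} [Field K] [Field F] [Algebra K F] [Field k] [Field Fk] [Algebra k Fk]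

/-- **KEY LEMMA**. -/
theorem key_lemma (S : RedSetup K F k Fk) (g : ℕ) : KeyLemmaStatement S g := by
  intro hRI hN m hm0 hmA D hdeg hmD hred
  obtain ⟨N⟩ := hN
  obtain ⟨φ, P, hφ, hP, hE⟩ := exists_jacobi S g hRI N D hdeg hred
  obtain ⟨f₁, hf₁, hf₁d⟩ := hmD
  have hmain := kl_main N m hm0 hmA P hP (f₁ * φ ^ m) (mul_ne_zero hf₁ (pow_ne_zero _ hφ))
    (fun v => by
      rw [v.ord_mul hf₁ (pow_ne_zero _ hφ), kl_ord_pow, ← hf₁d, ← hE v, Finsupp.smul_apply]
      simp only [nsmul_eq_mul]
      ring)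
  refine ⟨φ⁻¹, inv_ne_zero hφ, fun v => ?_⟩
  rw [v.ord_inv]
  have h := hE v
  rw [Finset.sum_eq_zero (fun i _ => by rw [hmain i, sub_self])] at h
  omega

/-- the KEY LEMMA, unfolded. -/
theorem key_lemma' (S : RedSetup K F k Fk) (g : ℕ)
    (hRI : ∀ D : Divisor K F, Divisor.degree D = g →
      ∃ φ : F, φ ≠ 0 ∧ ∀ P : Place K F, 0 ≤ D P + P.ord φ)
    (N : NSData S g) (m : ℕ) (hm0 : (m : K) ≠ 0) (hmA : ((m : K))⁻¹ ∈ S.A)
    (D : Divisor K F) (hdeg : Divisor.degree D = 0)
    (hmD : (m • D) ∈ Divisor.principal (K := K) (F := F))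
    (hred : Finsupp.mapDomain S.r D ∈ Divisor.principal (K := k) (F := Fk)) :
    D ∈ Divisor.principal (K := K) (F := F) :=
  key_lemma S g hRI ⟨N⟩ m hm0 hmA D hdeg hmD hred

end Fermat.Agent.S18Key
end
end MergeWrap_S18_KeyFinal

section MergeWrap_S18_KeyApply -- from S18/KeyApply.lean

set_option autoImplicit false

/-!
# S18 / cluster B, piece (4), abstract part: the KEY LEMMA in "function form"

For a reduction package `S : RedSetup K F k Fk` over an algebraically closed constant field `K`,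
with Riemann's inequality in degree `g` and `g` non-special generic points (`NSData S g`):

  a function `f ∈ Ov` with `ρ f = 1`, all of whose orders are divisible by `n`, `n` a unit of `A`,
  is an `n`-th power in `F`.

This is the shape of `Fermat.Agent.GaussInt.KeyLemmaAt`; the instantiation only has to supply the
package `S` (Deuring construction), `hRI` (Riemann) and `NSData` (helper7's `nonempty_nsData`).
(helper85)
-/

noncomputable section

open AlgebraicCurve Fermat.Agent.RR

namespace Fermat.Agent.S18Key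

variable {K F k Fk : Type*} [Field K] [Field F] [Algebra K F] [Field k] [Field Fk] [Algebra k Fk]

/-- the divisor `(1/n) div f`. -/
def divRoot (hF : IsRRField K F) (n : ℕ) (f : F) : Divisor K F :=
  (divOf hF f).mapRange (fun a : ℤ => a / (n : ℤ)) (by simp)

theorem divRoot_apply (hF : IsRRField K F) (n : ℕ) (f : F) (P : Place K F) :
    divRoot hF n f P = P.ord f / (n : ℤ) := by
  rw [divRoot, Finsupp.mapRange_apply, divOf_apply]

theorem nsmul_divRoot (hF : IsRRField K F) (n : ℕ) (f : F)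
    (hdiv : ∀ P : Place K F, (n : ℤ) ∣ P.ord f) : n • divRoot hF n f = divOf hF f := by
  ext P
  rw [Finsupp.smul_apply, divRoot_apply, divOf_apply, nsmul_eq_mul]
  exact Int.mul_ediv_cancel' (hdiv P)

theorem degree_divRoot (hF : IsRRField K F) (n : ℕ) (hn : n ≠ 0) (f : F)
    (hdiv : ∀ P : Place K F, (n : ℤ) ∣ P.ord f) : Divisor.degree (divRoot hF n f) = 0 := by
  have h := congrArg Divisor.degree (nsmul_divRoot hF n f hdiv)
  rw [map_nsmul, degree_divOf, nsmul_eq_mul] at h
  rcases mul_eq_zero.mp h with h0 | h0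
  · exact absurd (by exact_mod_cast h0) hn
  · exact h0

/-- a function without zeros and poles is a nonzero constant. -/
theorem exists_const_of_ord_eq_zero (hF : IsRRField K F) {u : F} (hu : u ≠ 0)
    (h : ∀ P : Place K F, P.ord u = 0) : ∃ c : K, c ≠ 0 ∧ u = algebraMap K F c := by
  have hmem : u ∈ riemannRochSpace (0 : Divisor K F) := by
    rw [mem_riemannRochSpace_iff]
    intro v
    right
    rw [h v]
    simp
  obtain ⟨c, hc⟩ := (mem_riemannRochSpace_zero_iff hF u).mp hmem
  refine ⟨c, ?_, hc.symm⟩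
  rintro rfl
  rw [map_zero] at hc
  exact hu hc.symm

/-- **KEY LEMMA, function form.** -/
theorem exists_pow_eq_of_key [IsAlgClosed K] (S : RedSetup K F k Fk) (g : ℕ)
    (hRI : ∀ D : Divisor K F, Divisor.degree D = g →
      ∃ φ : F, φ ≠ 0 ∧ ∀ P : Place K F, 0 ≤ D P + P.ord φ)
    (N : NSData S g) (n : ℕ) (hn0 : (n : K) ≠ 0) (hnA : ((n : K))⁻¹ ∈ S.A)
    (f : F) (hfO : f ∈ S.Ov) (hρ : S.ρ ⟨f, hfO⟩ = 1)
    (hdiv : ∀ P : Place K F, (n : ℤ) ∣ P.ord f) :
    ∃ h : F, h ^ n = f := by
  classical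
  have hn : n ≠ 0 := by
    rintro rfl
    exact hn0 (by simp)
  have hρne : S.ρ ⟨f, hfO⟩ ≠ 0 := by
    rw [hρ]
    exact one_ne_zero
  obtain ⟨hfinv, hf⟩ := inv_mem_of_rho_ne_zero S hfO hρne
  set D : Divisor K F := divRoot S.hF n f with hD
  have hnD : n • D = divOf S.hF f := nsmul_divRoot S.hF n f hdiv
  have hdeg : Divisor.degree D = 0 := degree_divRoot S.hF n hn f hdiv
  have hprin : (n • D) ∈ Divisor.principal (K := K) (F := F) := by
    rw [hnD]
    exact ⟨f, hf, fun v => divOf_apply S.hF f v⟩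
  -- the reduction of `D` is zero
  have hpush : Finsupp.mapDomain S.r (divOf S.hF f) = 0 := by
    ext Q
    rw [S.push f hfO hfinv hf Q, hρ, Q.ord_one]
    rfl
  have hred0 : Finsupp.mapDomain S.r D = 0 := by
    have h1 : n • Finsupp.mapDomain S.r D = 0 := by
      rw [← Finsupp.mapDomain_smul, hnD, hpush]
    ext Q
    have h2 := congrArg (fun E : Place k Fk →₀ ℤ => E Q) h1
    simp only [Finsupp.smul_apply, Finsupp.coe_zero, Pi.zero_apply, nsmul_eq_mul] at h2
    rcases mul_eq_zero.mp h2 with h0 | h0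
    · exact absurd (by exact_mod_cast h0) hn
    · simpa using h0
  have hred : Finsupp.mapDomain S.r D ∈ Divisor.principal (K := k) (F := Fk) := by
    rw [hred0]
    exact zero_mem _
  obtain ⟨h', hh', hDh'⟩ := key_lemma' S g hRI N n hn0 hnA D hdeg hprin hred
  -- `f / h'^n` has trivial divisor
  have hpow : h' ^ n ≠ 0 := pow_ne_zero _ hh'
  have hu : f * (h' ^ n)⁻¹ ≠ 0 := mul_ne_zero hf (inv_ne_zero hpow)
  have hord : ∀ P : Place K F, P.ord (f * (h' ^ n)⁻¹) = 0 := by
    intro P
    rw [P.ord_mul hf (inv_ne_zero hpow), P.ord_inv, kl_ord_pow, ← hDh' P]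
    have h3 := congrArg (fun E : Divisor K F => E P) hnD
    simp only [Finsupp.smul_apply, nsmul_eq_mul] at h3
    rw [divOf_apply] at h3
    rw [← h3]
    ring
  obtain ⟨c, hc, hcu⟩ := exists_const_of_ord_eq_zero S.hF hu hord
  obtain ⟨d, hd⟩ := IsAlgClosed.exists_pow_nat_eq c (Nat.pos_of_ne_zero hn)
  refine ⟨algebraMap K F d * h', ?_⟩
  rw [mul_pow, ← map_pow, hd, ← hcu, mul_assoc, inv_mul_cancel₀ hpow, mul_one]

end Fermat.Agent.S18Key
end
end MergeWrap_S18_KeyApply

section MergeWrap_S18_KeyGlue -- from S18/KeyGlue.lean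

set_option autoImplicit false

/-!
# S18 / cluster B, piece (4): glue of the KEY LEMMA with the Riemann-Roch library, Deuring's
reduction map and the `(NS)` package

* `riemann_of_isRRField` : Riemann's inequality in the form `hRI` used by the KEY LEMMA.
* `RedSetup.ofVal` : a `Deuring.ValSetup` + a reduction map of places with `push` is a `RedSetup`.
* `exists_pow_eq_of_reduction` : KEY LEMMA in function form for a `ValSetup` with a reduction map
  and a base function (`BaseFn`, e.g. `j`).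
* `exists_pow_eq_of_valSetup` : the same with the reduction map supplied by
  `Deuring.exists_reduction` (lattice property + genus equality).
(helper85)
-/

noncomputable section

open AlgebraicCurve Fermat.Agent.RR

namespace Fermat.Agent.S18Key

variable {K F k Fk : Type*} [Field K] [Field F] [Algebra K F] [Field k] [Field Fk] [Algebra k Fk]

/-- Riemann's inequality, in the form used by the KEY LEMMA: a divisor of degree `g ≥ genus`
is linearly equivalent to an effective one. -/
theorem riemann_of_isRRField (hF : IsRRField K F) (g : ℕ) (hg : genusFF K F ≤ g) :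
    ∀ D : Divisor K F, Divisor.degree D = g →
      ∃ φ : F, φ ≠ 0 ∧ ∀ P : Place K F, 0 ≤ D P + P.ord φ := by
  intro D hD
  obtain ⟨W, hW⟩ := riemann_roch hF
  have h1 := hW D
  have hpos : 0 < ell D := by
    have hg' : (genusFF K F : ℤ) ≤ (g : ℤ) := by exact_mod_cast hg
    have h2 : (0 : ℤ) ≤ (ell (W - D) : ℤ) := Int.natCast_nonneg _
    have h3 : (0 : ℤ) < (ell D : ℤ) := by
      rw [h1, hD]
      linarith
    exact_mod_cast h3
  have hne : riemannRochSpace D ≠ ⊥ := by
    intro hbot
    rw [ell_def, hbot, finrank_bot] at hpos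
    exact lt_irrefl _ hpos
  obtain ⟨φ, hφ, hφ0⟩ := Submodule.exists_mem_ne_zero_of_ne_bot hne
  refine ⟨φ, hφ0, fun P => ?_⟩
  rcases (mem_riemannRochSpace_iff.mp hφ) P with h0 | h0
  · exact absurd h0 hφ0
  · linarith

/-- A `Deuring.ValSetup` together with a reduction map of places satisfying `push` is a reduction
package in the sense of the KEY LEMMA. -/
def RedSetup.ofVal (S : Fermat.Agent.Deuring.ValSetup K F k Fk) (r : Place K F → Place k Fk)
    (hpush : ∀ f : F, f ∈ S.Ov → f⁻¹ ∈ S.Ov → f ≠ 0 → ∀ Q : Place k Fk,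
      Finsupp.mapDomain r (divOf S.hF f) Q = Q.ord (S.red f)) : RedSetup K F k Fk where
  A := S.A
  Ov := S.Ov
  res := S.res
  ρ := S.ρ
  r := r
  hF := S.hF
  mem_Ov_iff := S.mem_Ov_iff
  ρ_algebraMap := S.ρ_algebraMap
  ρ_eq_zero_iff := S.ρ_eq_zero_iff
  scale := S.scale
  push := fun f hf hfi hf0 Q => by
    rw [hpush f hf hfi hf0 Q, Fermat.Agent.Deuring.ValSetup.red, dif_pos hf]

/-- **KEY LEMMA, function form, for a `ValSetup` with a reduction map.** -/
theorem exists_pow_eq_of_reduction [IsAlgClosed K] [Infinite k]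
    (S : Fermat.Agent.Deuring.ValSetup K F k Fk) (r : Place K F → Place k Fk)
    (hpush : ∀ f : F, f ∈ S.Ov → f⁻¹ ∈ S.Ov → f ≠ 0 → ∀ Q : Place k Fk,
      Finsupp.mapDomain r (divOf S.hF f) Q = Q.ord (S.red f))
    (B : BaseFn (RedSetup.ofVal S r hpush)) (hg : genusFF K F ≤ genusFF k Fk)
    (n : ℕ) (hn0 : (n : K) ≠ 0) (hnA : ((n : K))⁻¹ ∈ S.A)
    (f : F) (hfO : f ∈ S.Ov) (hρ : S.ρ ⟨f, hfO⟩ = 1)
    (hdiv : ∀ P : Place K F, (n : ℤ) ∣ P.ord f) :
    ∃ h : F, h ^ n = f := by
  obtain ⟨N⟩ := BaseFn.nonempty_nsData B S.hFk S.res_surj (genusFF K F) hg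
  exact exists_pow_eq_of_key (RedSetup.ofVal S r hpush) (genusFF K F)
    (riemann_of_isRRField S.hF _ le_rfl) N n hn0 hnA f hfO hρ hdiv

/-- **KEY LEMMA, function form, from the lattice property and genus equality.**
The base function is allowed to depend on the reduction map produced by Deuring's construction
(of which it may use `push` and the preservation of degrees). -/
theorem exists_pow_eq_of_valSetup [IsAlgClosed K] [Infinite k]
    (S : Fermat.Agent.Deuring.ValSetup K F k Fk) (hL : Fermat.Agent.Deuring.HasLattice S)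
    (hg : genusFF K F = genusFF k Fk)
    (hB : ∀ (r : Place K F → Place k Fk)
      (hpush : ∀ f : F, f ∈ S.Ov → f⁻¹ ∈ S.Ov → f ≠ 0 → ∀ Q : Place k Fk,
        Finsupp.mapDomain r (divOf S.hF f) Q = Q.ord (S.red f)),
      (∀ B : Divisor K F, 2 * (genusFF K F : ℤ) ≤ Divisor.degree B →
        Fermat.Agent.Deuring.redSpace S (riemannRochSpace B) =
          riemannRochSpace (Finsupp.mapDomain r B)) →
      (∀ B : Divisor K F, Divisor.degree (Finsupp.mapDomain r B) = Divisor.degree B) →
      Nonempty (BaseFn (RedSetup.ofVal S r hpush)))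
    (n : ℕ) (hn0 : (n : K) ≠ 0) (hnA : ((n : K))⁻¹ ∈ S.A)
    (f : F) (hfO : f ∈ S.Ov) (hρ : S.ρ ⟨f, hfO⟩ = 1)
    (hdiv : ∀ P : Place K F, (n : ℤ) ∣ P.ord f) :
    ∃ h : F, h ^ n = f := by
  obtain ⟨r, hpush, hGR, hdeg⟩ := Fermat.Agent.Deuring.exists_reduction S hL hg
  obtain ⟨B⟩ := hB r hpush hGR hdeg
  exact exists_pow_eq_of_reduction S r hpush B hg.le n hn0 hnA f hfO hρ hdiv

end Fermat.Agent.S18Key
end
end MergeWrap_S18_KeyGlue
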