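import Mathlib
import Fermat.Agent.MU.S18.KeyGlue
import Fermat.Agent.MU.Lib.RR.Hurwitz.Lower

section MergeWrap_S18_BaseFnBuild -- from S18/BaseFnBuild.lean

set_option autoImplicit false

/-!
# S18 / cluster B, piece (4): construction of the base function `BaseFn`

Input of `exists_pow_eq_of_valSetup` (helper85): for a `Deuring.ValSetup` with a reduction map of
places `r` satisfying `push`, `(GR)` and preservation of degrees, an element `x ∈ Ov` with
transcendental reduction `y = ρ x`, such that `Fk / k(y)` is finite separable and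
`deg (x)_∞ ≤ deg (y)_∞`, is a base function:

* `no_cancel`: `(y)_∞ ≤ r_* (x)_∞` by `(GR)` (applied to `n (x)_∞`, `n` large), hence equality by
  degrees, so every pole of `x` reduces to a pole of `y`;
* `bad`: the poles of `y` and the ramified places of `y`, finitely many by the Hurwitz bound
  `hurwitz_lower`.
(helper68)
-/

noncomputable section

open AlgebraicCurve Fermat.Agent.RR Fermat.Agent.Deuring IntermediateField

namespace Fermat.Agent.S18Key

variable {K F k Fk : Type*} [Field K] [Field F] [Algebra K F] [Field k] [Field Fk] [Algebra k Fk]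

/-- push-forward of an effective divisor dominates its values. -/
theorem bf_le_mapDomain {α β : Type*} (r : α → β) {D : α →₀ ℤ} (hD : 0 ≤ D) (P : α) :
    D P ≤ Finsupp.mapDomain r D (r P) := by
  classical
  rw [Finsupp.mapDomain, Finsupp.sum, Finsupp.finsetSum_apply]
  by_cases hP : P ∈ D.support
  · have h1 : (Finsupp.single (r P) (D P)) (r P) ≤
        ∑ a ∈ D.support, (Finsupp.single (r a) (D a)) (r P) := by
      apply Finset.single_le_sum (f := fun a => (Finsupp.single (r a) (D a)) (r P)) _ hP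
      intro a _
      show 0 ≤ (Finsupp.single (r a) (D a)) (r P)
      rw [Finsupp.single_apply]
      split_ifs
      · exact hD a
      · exact le_rfl
    rwa [Finsupp.single_eq_same] at h1
  · rw [Finsupp.notMem_support_iff.mp hP]
    apply Finset.sum_nonneg
    intro a _
    rw [Finsupp.single_apply]
    split_ifs
    · exact hD a
    · exact le_rfl

/-- push-forward of an effective divisor is effective. -/
theorem bf_mapDomain_nonneg {α β : Type*} (r : α → β) {D : α →₀ ℤ} (hD : 0 ≤ D) :
    0 ≤ Finsupp.mapDomain r D := by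
  classical
  intro Q
  rw [Finsupp.mapDomain, Finsupp.sum, Finsupp.finsetSum_apply]
  apply Finset.sum_nonneg
  intro a _
  rw [Finsupp.single_apply]
  split_ifs
  · exact hD a
  · exact le_rfl

theorem bf_pow_mem_nsmul_poleDiv (h : IsRRField K F) (x : F) (n : ℕ) :
    x ^ n ∈ riemannRochSpace (n • poleDiv h x) := by
  rw [mem_riemannRochSpace_iff]
  intro v
  right
  rw [Finsupp.smul_apply, poleDiv_apply, kl_ord_pow, nsmul_eq_mul]
  have h1 := le_max_left (-(v.ord x)) 0
  have h2 : (0 : ℤ) ≤ (n : ℤ) := Int.natCast_nonneg n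
  nlinarith

section Setup

variable (S : ValSetup K F k Fk) (r : Place K F → Place k Fk)

/-- `(y)_∞ ≤ r_* (x)_∞` for `y = red x`, from `(GR)`. -/
theorem bf_poleDiv_red_le
    (hGR : ∀ B : Divisor K F, 2 * (genusFF K F : ℤ) ≤ Divisor.degree B →
      redSpace S (riemannRochSpace B) = riemannRochSpace (Finsupp.mapDomain r B))
    {x : F} (hx : x ∈ S.Ov) (hpos : 0 < Divisor.degree (poleDiv S.hF x)) :
    poleDiv S.hFk (S.red x) ≤ Finsupp.mapDomain r (poleDiv S.hF x) := by
  classical
  -- a multiple of `(x)_∞` of degree `≥ 2g`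
  set n : ℕ := 2 * genusFF K F + 1 with hn
  have hn0 : 0 < n := by omega
  have hdegn : 2 * (genusFF K F : ℤ) ≤ Divisor.degree (n • poleDiv S.hF x) := by
    rw [map_nsmul, nsmul_eq_mul]
    have h1 : (1 : ℤ) ≤ Divisor.degree (poleDiv S.hF x) := hpos
    have h2 : ((n : ℕ) : ℤ) = 2 * (genusFF K F : ℤ) + 1 := by
      rw [hn]; push_cast; ring
    rw [h2]
    nlinarith [Int.natCast_nonneg (genusFF K F)]
  have hmem : S.red (x ^ n) ∈ redSpace S (riemannRochSpace (n • poleDiv S.hF x)) :=
    red_mem_redSpace S _ (bf_pow_mem_nsmul_poleDiv S.hF x n) (S.Ov.pow_mem hx n)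
  rw [hGR _ hdegn, S.red_pow hx, mem_riemannRochSpace_iff] at hmem
  have hnn : 0 ≤ Finsupp.mapDomain r (poleDiv S.hF x) :=
    bf_mapDomain_nonneg r (poleDiv_nonneg S.hF x)
  rw [Finsupp.le_def]
  intro Q
  rw [poleDiv_apply]
  apply max_le _ (hnn Q)
  rcases hmem Q with h0 | h0
  · have hy0 : S.red x = 0 := by
      exact pow_eq_zero_iff (by omega) |>.mp h0
    rw [hy0, Q.ord_zero]
    simpa using hnn Q
  · rw [Finsupp.mapDomain_smul, Finsupp.smul_apply, kl_ord_pow, nsmul_eq_mul] at h0
    have h2 : (0 : ℤ) < (n : ℤ) := by exact_mod_cast hn0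
    by_contra hcon
    rw [not_le] at hcon
    nlinarith

/-- `(y)_∞ = r_* (x)_∞` if moreover `deg (x)_∞ ≤ deg (y)_∞`. -/
theorem bf_poleDiv_red_eq
    (hGR : ∀ B : Divisor K F, 2 * (genusFF K F : ℤ) ≤ Divisor.degree B →
      redSpace S (riemannRochSpace B) = riemannRochSpace (Finsupp.mapDomain r B))
    (hdeg : ∀ B : Divisor K F, Divisor.degree (Finsupp.mapDomain r B) = Divisor.degree B)
    {x : F} (hx : x ∈ S.Ov) (hpos : 0 < Divisor.degree (poleDiv S.hF x))
    (hle : Divisor.degree (poleDiv S.hF x) ≤ Divisor.degree (poleDiv S.hFk (S.red x))) :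
    poleDiv S.hFk (S.red x) = Finsupp.mapDomain r (poleDiv S.hF x) := by
  have h1 := bf_poleDiv_red_le S r hGR hx hpos
  refine eq_of_le_of_degree_eq S.hFk h1 (le_antisymm (degree_mono S.hFk h1) ?_)
  rw [hdeg]
  exact hle

/-- poles of `x` reduce to poles of `red x`. -/
theorem bf_no_cancel
    (hGR : ∀ B : Divisor K F, 2 * (genusFF K F : ℤ) ≤ Divisor.degree B →
      redSpace S (riemannRochSpace B) = riemannRochSpace (Finsupp.mapDomain r B))
    (hdeg : ∀ B : Divisor K F, Divisor.degree (Finsupp.mapDomain r B) = Divisor.degree B)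
    {x : F} (hx : x ∈ S.Ov)
    (hle : Divisor.degree (poleDiv S.hF x) ≤ Divisor.degree (poleDiv S.hFk (S.red x)))
    (P : Place K F) (hP : P.ord x < 0) : (r P).ord (S.red x) < 0 := by
  have hPpos : 0 < poleDiv S.hF x P := by
    rw [poleDiv_apply]
    exact lt_max_of_lt_left (by omega)
  have hpos : 0 < Divisor.degree (poleDiv S.hF x) := by
    by_contra hcon
    rw [not_lt] at hcon
    have h0 : Divisor.degree (poleDiv S.hF x) = 0 :=
      le_antisymm hcon (degree_nonneg_of_nonneg S.hF (poleDiv_nonneg S.hF x))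
    have := eq_zero_of_nonneg_of_degree_eq_zero S.hF (poleDiv_nonneg S.hF x) h0
    rw [this] at hPpos
    simp at hPpos
  have heq := bf_poleDiv_red_eq S r hGR hdeg hx hpos hle
  have h1 := bf_le_mapDomain r (poleDiv_nonneg S.hF x) P
  rw [← heq, poleDiv_apply] at h1
  have h2 : 0 < max (-((r P).ord (S.red x))) 0 := lt_of_lt_of_le hPpos h1
  rcases lt_max_iff.mp h2 with h3 | h3
  · omega
  · exact absurd h3 (lt_irrefl _)

end Setup

section Ramified

variable [IsAlgClosed k]

/-- the set of ramified places of `y` (over finite values). -/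
def bfRam (y : Fk) : Set (Place k Fk) :=
  {Q | ∃ c : k, 2 ≤ Q.ord (y - algebraMap k Fk c)}

omit [IsAlgClosed k] in
theorem bf_ord_nonneg_of_sub (Q : Place k Fk) {y : Fk} {c : k}
    (h : 0 ≤ Q.ord (y - algebraMap k Fk c)) : 0 ≤ Q.ord y := by
  have h1 : y - algebraMap k Fk c ∈ Q.toValuationSubring :=
    Fermat.Agent.S24Res.mem_of_ord_nonneg Q h
  have h2 : algebraMap k Fk c ∈ Q.toValuationSubring :=
    Fermat.Agent.S24Res.mem_of_ord_nonneg Q (by rw [Fermat.Agent.S24Res.ord_algebraMap])
  have h3 : y ∈ Q.toValuationSubring := by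
    have := add_mem h1 h2
    rwa [sub_add_cancel] at this
  exact Fermat.Agent.S24Res.ord_nonneg_of_mem Q h3

/-- **finiteness of ramification**, from the Hurwitz bound. -/
theorem bf_finite_ram (hk : IsRRField k Fk) {y : Fk} (hy : Transcendental k y)
    [FiniteDimensional k⟮y⟯ Fk] [Algebra.IsSeparable k⟮y⟯ Fk] : (bfRam (k := k) y).Finite := by
  classical
  by_contra hinf
  have hinf' : (bfRam (k := k) y).Infinite := hinf
  set N : ℕ := 2 * genusFF k Fk + 2 * Module.finrank k⟮y⟯ Fk with hN
  obtain ⟨T, hT, hcard⟩ := hinf'.exists_subset_card_eq (N + 1)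
  have hbound := Fermat.Agent.RRHur.hurwitz_lower hk hy (sumPlaces T) (by
    intro v
    by_cases hv : v ∈ T
    · obtain ⟨c₀, hc₀⟩ := hT hv
      rw [sumPlaces_apply_of_mem hv]
      refine ⟨fun hneg => ?_, fun c hc => ?_⟩
      · have := bf_ord_nonneg_of_sub v (y := y) (c := c₀) (by omega)
        omega
      · have hcc : c = c₀ := value_unique v y (c := c) (c' := c₀) hc (by omega)
        rw [hcc]
        omega
    · rw [sumPlaces_apply_of_not_mem hv]
      refine ⟨fun hneg => by omega, fun c hc => by omega⟩)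
  rw [degree_sumPlaces hk, hcard] at hbound
  rw [hN] at hbound
  push_cast at hbound
  omega

end Ramified

/-- **Construction of the base function.** -/
theorem nonempty_baseFn [IsAlgClosed k] (S : ValSetup K F k Fk) (r : Place K F → Place k Fk)
    (hpush : ∀ f : F, f ∈ S.Ov → f⁻¹ ∈ S.Ov → f ≠ 0 → ∀ Q : Place k Fk,
      Finsupp.mapDomain r (divOf S.hF f) Q = Q.ord (S.red f))
    (hGR : ∀ B : Divisor K F, 2 * (genusFF K F : ℤ) ≤ Divisor.degree B →
      redSpace S (riemannRochSpace B) = riemannRochSpace (Finsupp.mapDomain r B))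
    (hdeg : ∀ B : Divisor K F, Divisor.degree (Finsupp.mapDomain r B) = Divisor.degree B)
    (x : F) (hx : x ∈ S.Ov) (hy : Transcendental k (S.red x))
    [FiniteDimensional k⟮S.red x⟯ Fk] [Algebra.IsSeparable k⟮S.red x⟯ Fk]
    (hle : Divisor.degree (poleDiv S.hF x) ≤ Divisor.degree (poleDiv S.hFk (S.red x))) :
    Nonempty (BaseFn (RedSetup.ofVal S r hpush)) := by
  classical
  have hρ : (RedSetup.ofVal S r hpush).ρ ⟨x, hx⟩ = S.red x := (S.red_of_mem hx).symm
  have hfin : (bfRam (k := k) (S.red x)).Finite := bf_finite_ram S.hFk hy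
  have hpol : {Q : Place k Fk | Q.ord (S.red x) < 0}.Finite := finite_poles S.hFk (S.red x)
  refine ⟨{
    x := x
    x_mem := hx
    no_cancel := fun P hP => by
      rw [hρ]
      exact bf_no_cancel S r hGR hdeg hx hle P hP
    nonconst := fun c hc => by
      rw [hρ] at hc
      apply hy
      rw [hc]
      exact isAlgebraic_algebraMap c
    bad := hpol.toFinset ∪ hfin.toFinset
    regular := fun Q hQ => by
      rw [hρ]
      rw [Finset.mem_union, not_or] at hQ
      have h1 := hQ.1
      rw [Set.Finite.mem_toFinset] at h1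
      by_contra hcon
      exact h1 (not_le.mp hcon)
    unramified := fun Q hQ c hc => by
      rw [hρ] at hc ⊢
      rw [Finset.mem_union, not_or] at hQ
      have := hQ.2
      rw [Set.Finite.mem_toFinset] at this
      have h2 : ¬ 2 ≤ Q.ord (S.red x - algebraMap k Fk c) := fun h => this ⟨c, h⟩
      omega }⟩

end Fermat.Agent.S18Key
end
end MergeWrap_S18_BaseFnBuild
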